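import Fermat.Agent.S15.Mod.Cen.Ord

/-!
# S15 / MOD / CEN : consequences of the relation between `h` and `j`
-/

set_option autoImplicit false

noncomputable section

namespace Fermat.Agent.S15.Mod.Cen

open AlgebraicCurve Fermat.Agent.GR.E Fermat.Agent.S17.FF Fermat.Agent.GR.S.R Fermat.Agent.GR.S

variable {Ω F F' : Type} [Field Ω] [IsAlgClosed Ω] [CharZero Ω] [Field F] [Algebra Ω F] [IsFF Ω F]
  [Field F'] [Algebra Ω F'] [IsFF Ω F'] [HasPrincipalDivisors Ω F']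
variable {A : ValuationSubring Ω} {h J : F'}

theorem Base_val_zero (P : Place Ω F') : val P (0 : F') = 0 :=
  (val_eq_zero_iff P (by simp)).2 (Or.inl rfl)

/-- at a pole of `h`: `ord J = ord h`, and `J / h` has value `1`. -/
theorem BaseRel.ord_of_pole (B : BaseRel A h J) {P : Place Ω F'} (hP : P.ord h < 0) :
    P.ord J = P.ord h ∧ val P (J / h) = 1 := by
  obtain ⟨U, -, hU0, hJ⟩ := B.U
  have h0 : h ≠ 0 := by
    rintro rfl
    simp at hP
  have hi : 0 < P.ord h⁻¹ := by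
    rw [Place.ord_inv]
    omega
  have hv : val P (Polynomial.aeval h⁻¹ U) = 1 := by rw [val_aeval_of_ord_pos P hi, hU0]
  have hne : Polynomial.aeval h⁻¹ U ≠ 0 := by
    intro e
    rw [e, Base_val_zero] at hv
    exact zero_ne_one hv
  have ho : P.ord (Polynomial.aeval h⁻¹ U) = 0 :=
    Dom2_ord_eq_zero (ord_aeval_nonneg P hi.le U) (by rw [hv]; exact one_ne_zero)
  refine ⟨by rw [hJ, Place.ord_mul P h0 hne, ho, add_zero], ?_⟩
  rw [hJ, mul_div_cancel_left₀ _ h0, hv]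

/-- `h(P) ∉ A`: `J(P) / h(P)` is a unit congruent to `1`. -/
theorem BaseRel.val_of_not_mem (B : BaseRel A h J) {P : Place Ω F'} (hP : 0 ≤ P.ord h)
    (hv : val P h ∉ A) :
    0 ≤ P.ord J ∧ val P J / val P h - 1 ∈ A.nonunits := by
  obtain ⟨U, hUA, hU0, hJ⟩ := B.U
  have hv0 : val P h ≠ 0 := by
    intro e
    rw [e] at hv
    exact hv (zero_mem A)
  have ho : P.ord h = 0 := Dom2_ord_eq_zero hP hv0
  have h0 : h ≠ 0 := by
    rintro rfl
    exact hv0 (Base_val_zero P)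
  have hi : 0 ≤ P.ord h⁻¹ := by rw [Place.ord_inv, ho, neg_zero]
  have hvi : val P h⁻¹ = (val P h)⁻¹ := eq_inv_of_mul_eq_one_right (Dom2_val_inv h0 ho)
  have hm : val P h⁻¹ ∈ A.nonunits := by
    rw [hvi]
    exact inv_nu_of_not_mem hv
  obtain ⟨h1, h2⟩ := val_aeval_sub_mem P hi hm U hUA
  refine ⟨by rw [hJ]; exact Ord_mul_nonneg P hP h1, ?_⟩
  rw [hJ, val_mul P hP h1, mul_div_cancel_left₀ _ hv0, ← hU0]
  exact h2

/-- a pole of `J` is a pole or a zero of `h`. -/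
theorem BaseRel.ord_ne_zero (B : BaseRel A h J) (h0 : h ≠ 0) {P : Place Ω F'} (hP : P.ord J < 0) :
    P.ord h ≠ 0 := by
  obtain ⟨U, -, -, hJ⟩ := B.U
  intro ho
  have hi : 0 ≤ P.ord h⁻¹ := by rw [Place.ord_inv, ho, neg_zero]
  have : 0 ≤ P.ord J := by
    rw [hJ]
    exact Ord_mul_nonneg P ho.ge (ord_aeval_nonneg P hi U)
  omega

/-- `J` regular at `P`, `J(P) ∉ A`: `h` is regular at `P`, and `h(P) ∉ A` or `h(P) ∈ 𝔪_A`. -/
theorem BaseRel.val_cases (B : BaseRel A h J) (h0 : h ≠ 0) {P : Place Ω F'} (hP : 0 ≤ P.ord J)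
    (hv : val P J ∉ A) : 0 ≤ P.ord h ∧ (val P h ∉ A ∨ val P h ∈ A.nonunits) := by
  have hh : 0 ≤ P.ord h := by
    by_contra hcon
    have := (B.ord_of_pole (not_le.1 hcon)).1
    omega
  refine ⟨hh, ?_⟩
  by_contra hcon
  rw [not_or, not_not] at hcon
  obtain ⟨hA, hnu⟩ := hcon
  rcases B.V with e | ⟨e, V, -, hVA, -, hrel⟩
  · rw [← e] at hv
    exact hv hA
  · have hp := Dom2_val_pow hh e
    have h1 : val P J * val P h ^ e = V.eval (val P h) := by
      rw [← hp.2, ← val_mul P hP hp.1, hrel, (Ord_aeval P hh V).2]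
    have h2 : V.eval (val P h) ∈ A := by
      rw [Polynomial.eval_eq_sum_range]
      exact sum_mem fun i _ => mul_mem (hVA i) (pow_mem hA i)
    have h3 : val P h ^ e ∉ A.nonunits := not_nu_pow hA hnu e
    have h4 : val P J = V.eval (val P h) * (val P h ^ e)⁻¹ := by
      rw [← h1, mul_assoc, mul_inv_cancel₀ (ne_zero_of_not_nu h3), mul_one]
    apply hv
    rw [h4]
    exact mul_mem h2 (inv_mem_of_not_nu h3)

end Fermat.Agent.S15.Mod.Cen
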