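import Fermat.Agent.S15.Mod.Cen.Base

/-!
# S15 / MOD / CEN : orders of `φ j`, `φ g` at the places of `F'` (common part of `Chart1`, `Chart2`)
-/

set_option autoImplicit false
set_option linter.unusedSectionVars false

noncomputable section

namespace Fermat.Agent.S15.Mod.Cen

open AlgebraicCurve Fermat.Agent.GR.E Fermat.Agent.S17.FF Fermat.Agent.GR.S.R Fermat.Agent.GR.S

variable {Ω F F' : Type} [Field Ω] [IsAlgClosed Ω] [CharZero Ω] [Field F] [Algebra Ω F] [IsFF Ω F]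
  [Field F'] [Algebra Ω F'] [IsFF Ω F'] [HasPrincipalDivisors Ω F']
variable {A : ValuationSubring Ω} {𝒪 : ValuationSubring F'} {φ : F →ₐ[Ω] F'} {h : F'}
  {p : ℕ} {j g : F} {inf zero : Place Ω F}

theorem aux_ord_pow {L : Type} [Field L] [Algebra Ω L] (P : Place Ω L) (f : L) (k : ℕ) :
    P.ord (f ^ k) = (k : ℤ) * P.ord f := by
  rw [← zpow_natCast, Place.ord_zpow]

theorem aux_ord_div {L : Type} [Field L] [Algebra Ω L] (P : Place Ω L) {f f' : L} (hf : f ≠ 0)
    (hf' : f' ≠ 0) : P.ord (f / f') = P.ord f - P.ord f' := by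
  rw [div_eq_mul_inv, Place.ord_mul P hf (inv_ne_zero hf'), Place.ord_inv, sub_eq_add_neg]

theorem aux_val_eq_zero {L : Type} [Field L] [Algebra Ω L] [IsFF Ω L] (P : Place Ω L) {f : L}
    (hf : 0 < P.ord f) : val P f = 0 :=
  (val_eq_zero_iff P hf.le).2 (Or.inr hf)

theorem Setting.cast_p (S : Setting A 𝒪 φ h p j g inf zero) : ((p - 1 : ℕ) : ℤ) = (p : ℤ) - 1 := by
  have := S.hp
  rw [Nat.cast_sub (by omega)]
  rfl

theorem Setting.two_le (S : Setting A 𝒪 φ h p j g inf zero) : (2 : ℤ) ≤ (p : ℤ) := by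
  exact_mod_cast S.hp

theorem Setting.j_ne (S : Setting A 𝒪 φ h p j g inf zero) : j ≠ 0 := by
  intro h0
  have := S.cd.inf_j
  rw [h0, Place.ord_zero] at this
  omega

theorem Setting.g_ne (S : Setting A 𝒪 φ h p j g inf zero) : g ≠ 0 := by
  intro h0
  have := S.cd.inf_g
  have h2 := S.two_le
  rw [h0, Place.ord_zero] at this
  omega

theorem Setting.phi_j_ne (S : Setting A 𝒪 φ h p j g inf zero) : φ j ≠ 0 :=
  (map_ne_zero φ).2 S.j_ne

theorem Setting.phi_g_ne (S : Setting A 𝒪 φ h p j g inf zero) : φ g ≠ 0 :=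
  (map_ne_zero φ).2 S.g_ne

/-- a pole of `φ j` lies over a cusp. -/
theorem Setting.res_of_pole_j (S : Setting A 𝒪 φ h p j g inf zero) {P' : Place Ω F'}
    (hP : P'.ord (φ j) < 0) : res φ P' = inf ∨ res φ P' = zero := by
  apply S.cd.pole
  rw [ord_map] at hP
  have hE := ramificationIndexAlong_pos φ P'
  by_contra hc
  exact absurd hP (not_lt.mpr (mul_nonneg hE.le (not_lt.mp hc)))

theorem Setting.ord_over_inf (S : Setting A 𝒪 φ h p j g inf zero) {P' : Place Ω F'}
    (hP : res φ P' = inf) :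
    P'.ord (φ j) = -(Place.ramificationIndexAlong φ P' : ℤ) ∧
      P'.ord (φ g) = (Place.ramificationIndexAlong φ P' : ℤ) * (1 - (p : ℤ)) := by
  rw [ord_map, ord_map, hP, S.cd.inf_j, S.cd.inf_g]
  exact ⟨by ring, rfl⟩

theorem Setting.ord_over_zero (S : Setting A 𝒪 φ h p j g inf zero) {P' : Place Ω F'}
    (hP : res φ P' = zero) :
    P'.ord (φ j) = -((Place.ramificationIndexAlong φ P' : ℤ) * (p : ℤ)) ∧
      P'.ord (φ g) = (Place.ramificationIndexAlong φ P' : ℤ) * ((p : ℤ) - 1) := by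
  rw [ord_map, ord_map, hP, S.cd.zero_j, S.cd.zero_g]
  exact ⟨by ring, rfl⟩

/-- where `φ j` is regular, `φ g` is a unit. -/
theorem Setting.ord_g_of_regular (S : Setting A 𝒪 φ h p j g inf zero) {P' : Place Ω F'}
    (hP : 0 ≤ P'.ord (φ j)) : P'.ord (φ g) = 0 := by
  have hE := ramificationIndexAlong_pos φ P'
  have h2 := S.two_le
  have h1 : res φ P' ≠ inf := by
    intro hc
    have := (S.ord_over_inf hc).1
    omega
  have h3 : res φ P' ≠ zero := by
    intro hc
    have := (S.ord_over_zero hc).1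
    have h4 : 0 < (Place.ramificationIndexAlong φ P' : ℤ) * (p : ℤ) := mul_pos hE (by omega)
    omega
  rw [ord_map, S.cd.unit_g _ h1 h3, mul_zero]

/-- where `h` is a unit, `φ j` is regular. -/
theorem Setting.ord_j_of_unit (S : Setting A 𝒪 φ h p j g inf zero) {P' : Place Ω F'}
    (hP : P'.ord h = 0) : 0 ≤ P'.ord (φ j) := by
  by_contra hc
  exact S.br.ord_ne_zero S.h0 (not_le.mp hc) hP

/-- the value of `φ (g / j^(p-1))` at a place over `∞`. -/
theorem Setting.val_gj_inf (S : Setting A 𝒪 φ h p j g inf zero) {P' : Place Ω F'}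
    (hP : res φ P' = inf) :
    0 ≤ P'.ord (φ (g / j ^ (p - 1))) ∧ val P' (φ (g / j ^ (p - 1))) = 1 := by
  have h0 : inf.ord (g / j ^ (p - 1)) = 0 := by
    rw [aux_ord_div inf S.g_ne (pow_ne_zero _ S.j_ne), aux_ord_pow, S.cd.inf_g, S.cd.inf_j,
      S.cast_p]
    ring
  constructor
  · rw [ord_map, hP, h0, mul_zero]
  · rw [val_map φ P' (by rw [hP, h0]), hP, S.cd.val_inf]

theorem sep_dom_of_ord_pos {P : Place Ω F'} (hP : 0 < P.ord h) : Dom A h P :=
  ⟨hP.le, by rw [aux_val_eq_zero P hP]; exact A.zero_mem⟩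

theorem sep_not_dom_of_ord_neg {P : Place Ω F'} (hP : P.ord h < 0) : ¬ Dom A h P :=
  fun hD => absurd hD.1 (not_le.mpr hP)

theorem sep_red_of_dom {P : Place Ω F'} (hP : Dom A h P) : red A h P = Sum.inl (ker A h P) := by
  unfold red
  rw [if_pos hP]

theorem sep_red_of_not_dom {P : Place Ω F'} (hP : ¬ Dom A h P) :
    red A h P = Sum.inr (ker A h⁻¹ P) := by
  unfold red
  rw [if_neg hP]

theorem sep_pow_not_mem_nonunits {a : Ω} (ha : a ∉ A.nonunits) (k : ℕ) : a ^ k ∉ A.nonunits := by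
  rw [A.mem_nonunits_iff, not_lt] at *
  rw [map_pow]
  exact one_le_pow₀ ha

theorem Setting.ord_j_neg_inf (S : Setting A 𝒪 φ h p j g inf zero) {P' : Place Ω F'}
    (h1 : res φ P' = inf) : P'.ord (φ j) < 0 := by
  have hE := ramificationIndexAlong_pos φ P'
  rw [(S.ord_over_inf h1).1]
  omega

theorem Setting.ord_j_neg_zero (S : Setting A 𝒪 φ h p j g inf zero) {P' : Place Ω F'}
    (h1 : res φ P' = zero) : P'.ord (φ j) < 0 := by
  have hE := ramificationIndexAlong_pos φ P'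
  have h2 := S.two_le
  rw [(S.ord_over_zero h1).1]
  have : 0 < (Place.ramificationIndexAlong φ P' : ℤ) * (p : ℤ) := mul_pos hE (by omega)
  omega

theorem sep_unit_of_sub_mem {u v : Ω} (hv' : v ∉ A.nonunits)
    (huv : u - v ∈ A.nonunits) : u ≠ 0 ∧ u⁻¹ ∈ A := by
  have h1 : u ∉ A.nonunits := by
    intro hu
    apply hv'
    have := Dom_nonunits_add A hu (Dom_nonunits_neg A huv)
    rwa [neg_sub, add_sub_cancel] at this
  rw [Dom_mem_nonunits_iff, not_or, not_not] at h1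
  exact h1

theorem sep_not_mem_of_inv_mem {u : Ω} (hu : u ≠ 0) (h1 : u⁻¹ ∈ A.nonunits) : u ∉ A := by
  rw [Dom_mem_nonunits_iff, inv_inv] at h1
  exact h1.resolve_left (inv_ne_zero hu)

end Fermat.Agent.S15.Mod.Cen
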