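import Fermat.Agent.S15.Mod.Cen.Base
import Fermat.Agent.S15.Mod.Cen.ChartAux

/-!
# S15 / MOD / CEN : the chart functions `t₁ = g / h^(p-1)`, `z₁ = 1/(h g)` (chart `1/h`) and
`t₂ = g h^(e(p-1))`, `z₂ = h^e / g` (chart `h`)
-/

set_option autoImplicit false

noncomputable section

namespace Fermat.Agent.S15.Mod.Cen

open AlgebraicCurve Fermat.Agent.GR.E Fermat.Agent.S17.FF Fermat.Agent.GR.S.R Fermat.Agent.GR.S

variable {Ω F F' : Type} [Field Ω] [IsAlgClosed Ω] [CharZero Ω] [Field F] [Algebra Ω F] [IsFF Ω F]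
  [Field F'] [Algebra Ω F'] [IsFF Ω F'] [HasPrincipalDivisors Ω F']
variable {A : ValuationSubring Ω} {𝒪 : ValuationSubring F'} {φ : F →ₐ[Ω] F'} {h : F'}
  {p : ℕ} {j g : F} {inf zero : Place Ω F}

/-- a pole of `h` lies over a cusp. -/
theorem Setting.res_of_pole (S : Setting A 𝒪 φ h p j g inf zero) {P' : Place Ω F'}
    (hP : P'.ord h < 0) : res φ P' = inf ∨ res φ P' = zero := by
  apply S.res_of_pole_j
  rw [(S.br.ord_of_pole hP).1]
  exact hP

theorem Setting.c1_ord_t1 (S : Setting A 𝒪 φ h p j g inf zero) (P' : Place Ω F') :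
    P'.ord (φ g / h ^ (p - 1)) = P'.ord (φ g) - ((p : ℤ) - 1) * P'.ord h := by
  rw [aux_ord_div P' S.phi_g_ne (pow_ne_zero _ S.h0), aux_ord_pow, S.cast_p]

theorem Setting.c1_ord_z1 (S : Setting A 𝒪 φ h p j g inf zero) (P' : Place Ω F') :
    P'.ord (h * φ g)⁻¹ = -(P'.ord h + P'.ord (φ g)) := by
  rw [Place.ord_inv, Place.ord_mul P' S.h0 S.phi_g_ne]

theorem Setting.c1_ord_t1_inf (S : Setting A 𝒪 φ h p j g inf zero) {P' : Place Ω F'}
    (hP : res φ P' = inf) (hh : P'.ord h < 0) : P'.ord (φ g / h ^ (p - 1)) = 0 := by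
  rw [S.c1_ord_t1, ← (S.br.ord_of_pole hh).1, (S.ord_over_inf hP).1, (S.ord_over_inf hP).2]
  ring

theorem Setting.c1_ord_t1_zero (S : Setting A 𝒪 φ h p j g inf zero) {P' : Place Ω F'}
    (hP : res φ P' = zero) (hh : P'.ord h < 0) : 0 < P'.ord (φ g / h ^ (p - 1)) := by
  rw [S.c1_ord_t1, ← (S.br.ord_of_pole hh).1, (S.ord_over_zero hP).1, (S.ord_over_zero hP).2]
  have hE := ramificationIndexAlong_pos φ P'
  have h2 := S.two_le
  have h3 : (Place.ramificationIndexAlong φ P' : ℤ) * ((p : ℤ) - 1)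
      - ((p : ℤ) - 1) * -((Place.ramificationIndexAlong φ P' : ℤ) * (p : ℤ))
      = (Place.ramificationIndexAlong φ P' : ℤ) * (((p : ℤ) - 1) * ((p : ℤ) + 1)) := by ring
  rw [h3]
  exact mul_pos hE (mul_pos (by omega) (by omega))

theorem Setting.c1_ord_z1_pos (S : Setting A 𝒪 φ h p j g inf zero) {P' : Place Ω F'}
    (hh : P'.ord h < 0) : 0 < P'.ord (h * φ g)⁻¹ := by
  have hE := ramificationIndexAlong_pos φ P'
  have h2 := S.two_le
  rw [S.c1_ord_z1, ← (S.br.ord_of_pole hh).1]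
  rcases S.res_of_pole hh with hP | hP
  · rw [(S.ord_over_inf hP).1, (S.ord_over_inf hP).2]
    have h3 : -(-(Place.ramificationIndexAlong φ P' : ℤ)
        + (Place.ramificationIndexAlong φ P' : ℤ) * (1 - (p : ℤ)))
        = (Place.ramificationIndexAlong φ P' : ℤ) * (p : ℤ) := by ring
    rw [h3]
    exact mul_pos hE (by omega)
  · rw [(S.ord_over_zero hP).1, (S.ord_over_zero hP).2]
    have h3 : -(-((Place.ramificationIndexAlong φ P' : ℤ) * (p : ℤ))
        + (Place.ramificationIndexAlong φ P' : ℤ) * ((p : ℤ) - 1))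
        = (Place.ramificationIndexAlong φ P' : ℤ) := by ring
    rw [h3]
    exact hE

theorem Setting.t1_mem (S : Setting A 𝒪 φ h p j g inf zero) :
    φ g / h ^ (p - 1) ∈ chart A ({h⁻¹} : Set F') := by
  refine mem_chart_of S.G S.C1 ?_ ?_
  · rw [div_eq_mul_inv, ← inv_pow]
    exact 𝒪.mul_mem _ _ S.g_mem (𝒪.pow_mem S.C1.mem _)
  · intro P hP
    rw [Place.ord_inv] at hP
    rcases lt_or_eq_of_le (neg_nonneg.mp hP) with hh | hh
    · rcases S.res_of_pole hh with h1 | h1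
      · exact (S.c1_ord_t1_inf h1 hh).ge
      · exact (S.c1_ord_t1_zero h1 hh).le
    · rw [S.c1_ord_t1, hh, S.ord_g_of_regular (S.ord_j_of_unit hh)]
      simp

theorem Setting.z1_mem (S : Setting A 𝒪 φ h p j g inf zero) :
    (h * φ g)⁻¹ ∈ chart A ({h⁻¹} : Set F') := by
  refine mem_chart_of S.G S.C1 ?_ ?_
  · rw [mul_inv]
    exact 𝒪.mul_mem _ _ S.C1.mem S.g_inv_mem
  · intro P hP
    rw [Place.ord_inv] at hP
    rcases lt_or_eq_of_le (neg_nonneg.mp hP) with hh | hh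
    · exact (S.c1_ord_z1_pos hh).le
    · rw [S.c1_ord_z1, hh, S.ord_g_of_regular (S.ord_j_of_unit hh)]
      simp

theorem Setting.val_t1_inf (S : Setting A 𝒪 φ h p j g inf zero) {P' : Place Ω F'}
    (hP : res φ P' = inf) (hh : P'.ord h < 0) : val P' (φ g / h ^ (p - 1)) = 1 := by
  have e1 : φ g / h ^ (p - 1) = φ (g / j ^ (p - 1)) * (φ j / h) ^ (p - 1) := by
    rw [map_div₀, map_pow, div_pow]
    have := S.phi_j_ne
    have := S.h0
    field_simp
  have h1 := S.val_gj_inf hP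
  have h2 := S.br.ord_of_pole hh
  have h3 : 0 ≤ P'.ord (φ j / h) := by
    rw [aux_ord_div P' S.phi_j_ne S.h0, h2.1, sub_self]
  have h4 := Dom2_val_pow h3 (p - 1)
  rw [e1, val_mul P' h1.1 h4.1, h1.2, h4.2, h2.2, one_pow, one_mul]

theorem Setting.val_t1_zero (S : Setting A 𝒪 φ h p j g inf zero) {P' : Place Ω F'}
    (hP : res φ P' = zero) (hh : P'.ord h < 0) : val P' (φ g / h ^ (p - 1)) = 0 :=
  aux_val_eq_zero P' (S.c1_ord_t1_zero hP hh)

theorem Setting.val_z1 (S : Setting A 𝒪 φ h p j g inf zero) {P' : Place Ω F'}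
    (hh : P'.ord h < 0) : val P' (h * φ g)⁻¹ = 0 :=
  aux_val_eq_zero P' (S.c1_ord_z1_pos hh)

end Fermat.Agent.S15.Mod.Cen
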