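import Fermat.Agent.S15.Mod.Cen.Base
import Fermat.Agent.S15.Mod.Cen.ChartAux

/-!
# S15 / MOD / CEN : the chart functions `t₂ = g h^(e(p-1))`, `z₂ = h^e / g` (chart `h`)
-/

set_option autoImplicit false

noncomputable section

namespace Fermat.Agent.S15.Mod.Cen

open AlgebraicCurve Fermat.Agent.GR.E Fermat.Agent.S17.FF Fermat.Agent.GR.S.R Fermat.Agent.GR.S

variable {Ω F F' : Type} [Field Ω] [IsAlgClosed Ω] [CharZero Ω] [Field F] [Algebra Ω F] [IsFF Ω F]
  [Field F'] [Algebra Ω F'] [IsFF Ω F'] [HasPrincipalDivisors Ω F']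
variable {A : ValuationSubring Ω} {𝒪 : ValuationSubring F'} {φ : F →ₐ[Ω] F'} {h : F'}
  {p : ℕ} {j g : F} {inf zero : Place Ω F}

variable {e : ℕ} {V : Polynomial Ω}

/-- at a zero of `h`: `ord (φ j) = - e ord h`. -/
theorem Setting.c2_ord_j (S : Setting A 𝒪 φ h p j g inf zero)
    (hV0 : V.coeff 0 ∉ A.nonunits) (rel : φ j * h ^ e = Polynomial.aeval h V) {P' : Place Ω F'}
    (hP : 0 < P'.ord h) : P'.ord (φ j) = -((e : ℤ) * P'.ord h) := by
  have hV : V.coeff 0 ≠ 0 := fun h0 => hV0 (h0 ▸ A.nonunits.zero_mem)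
  have h1 : P'.ord (Polynomial.aeval h V) = 0 := by
    apply Dom2_ord_eq_zero (ord_aeval_nonneg P' hP.le V)
    rw [val_aeval_of_ord_pos P' hP V]
    exact hV
  rw [← rel, Place.ord_mul P' S.phi_j_ne (pow_ne_zero _ S.h0), aux_ord_pow] at h1
  omega

/-- a zero of `h` lies over a cusp. -/
theorem Setting.res_of_zero (S : Setting A 𝒪 φ h p j g inf zero) (he : 0 < e)
    (hV0 : V.coeff 0 ∉ A.nonunits) (rel : φ j * h ^ e = Polynomial.aeval h V) {P' : Place Ω F'}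
    (hP : 0 < P'.ord h) : res φ P' = inf ∨ res φ P' = zero := by
  apply S.res_of_pole_j
  rw [S.c2_ord_j hV0 rel hP]
  have : 0 < (e : ℤ) * P'.ord h := mul_pos (by exact_mod_cast he) hP
  omega

theorem Setting.c2_ord_t2 (S : Setting A 𝒪 φ h p j g inf zero) (P' : Place Ω F') :
    P'.ord (φ g * h ^ (e * (p - 1))) = P'.ord (φ g) + ((p : ℤ) - 1) * ((e : ℤ) * P'.ord h) := by
  rw [Place.ord_mul P' S.phi_g_ne (pow_ne_zero _ S.h0), aux_ord_pow, Nat.cast_mul, S.cast_p]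
  ring

theorem Setting.c2_ord_z2 (S : Setting A 𝒪 φ h p j g inf zero) (P' : Place Ω F') :
    P'.ord (h ^ e / φ g) = (e : ℤ) * P'.ord h - P'.ord (φ g) := by
  rw [aux_ord_div P' (pow_ne_zero _ S.h0) S.phi_g_ne, aux_ord_pow]

theorem Setting.c2_ord_t2_inf (S : Setting A 𝒪 φ h p j g inf zero)
    (hV0 : V.coeff 0 ∉ A.nonunits) (rel : φ j * h ^ e = Polynomial.aeval h V) {P' : Place Ω F'}
    (hP : res φ P' = inf) (hh : 0 < P'.ord h) : P'.ord (φ g * h ^ (e * (p - 1))) = 0 := by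
  have h1 := S.c2_ord_j hV0 rel hh
  rw [(S.ord_over_inf hP).1, neg_inj] at h1
  rw [S.c2_ord_t2, ← h1, (S.ord_over_inf hP).2]
  ring

theorem Setting.c2_ord_t2_zero (S : Setting A 𝒪 φ h p j g inf zero)
    (hV0 : V.coeff 0 ∉ A.nonunits) (rel : φ j * h ^ e = Polynomial.aeval h V) {P' : Place Ω F'}
    (hP : res φ P' = zero) (hh : 0 < P'.ord h) : 0 < P'.ord (φ g * h ^ (e * (p - 1))) := by
  have h1 := S.c2_ord_j hV0 rel hh
  rw [(S.ord_over_zero hP).1, neg_inj] at h1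
  rw [S.c2_ord_t2, ← h1, (S.ord_over_zero hP).2]
  have hE := ramificationIndexAlong_pos φ P'
  have h2 := S.two_le
  have h3 : (Place.ramificationIndexAlong φ P' : ℤ) * ((p : ℤ) - 1)
      + ((p : ℤ) - 1) * ((Place.ramificationIndexAlong φ P' : ℤ) * (p : ℤ))
      = (Place.ramificationIndexAlong φ P' : ℤ) * (((p : ℤ) - 1) * ((p : ℤ) + 1)) := by ring
  rw [h3]
  exact mul_pos hE (mul_pos (by omega) (by omega))

theorem Setting.c2_ord_z2_pos (S : Setting A 𝒪 φ h p j g inf zero) (he : 0 < e)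
    (hV0 : V.coeff 0 ∉ A.nonunits) (rel : φ j * h ^ e = Polynomial.aeval h V) {P' : Place Ω F'}
    (hh : 0 < P'.ord h) : 0 < P'.ord (h ^ e / φ g) := by
  have hE := ramificationIndexAlong_pos φ P'
  have h2 := S.two_le
  have h1 := S.c2_ord_j hV0 rel hh
  rw [S.c2_ord_z2]
  rcases S.res_of_zero he hV0 rel hh with hP | hP
  · rw [(S.ord_over_inf hP).1, neg_inj] at h1
    rw [← h1, (S.ord_over_inf hP).2]
    have h3 : (Place.ramificationIndexAlong φ P' : ℤ)
        - (Place.ramificationIndexAlong φ P' : ℤ) * (1 - (p : ℤ))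
        = (Place.ramificationIndexAlong φ P' : ℤ) * (p : ℤ) := by ring
    rw [h3]
    exact mul_pos hE (by omega)
  · rw [(S.ord_over_zero hP).1, neg_inj] at h1
    rw [← h1, (S.ord_over_zero hP).2]
    have h3 : (Place.ramificationIndexAlong φ P' : ℤ) * (p : ℤ)
        - (Place.ramificationIndexAlong φ P' : ℤ) * ((p : ℤ) - 1)
        = (Place.ramificationIndexAlong φ P' : ℤ) := by ring
    rw [h3]
    exact hE

theorem Setting.t2_mem (S : Setting A 𝒪 φ h p j g inf zero) (he : 0 < e)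
    (hV0 : V.coeff 0 ∉ A.nonunits) (rel : φ j * h ^ e = Polynomial.aeval h V) :
    φ g * h ^ (e * (p - 1)) ∈ chart A ({h} : Set F') := by
  refine mem_chart_of S.G S.C0 ?_ ?_
  · exact 𝒪.mul_mem _ _ S.g_mem (𝒪.pow_mem S.C0.mem _)
  · intro P hP
    rcases lt_or_eq_of_le hP with hh | hh
    · rcases S.res_of_zero he hV0 rel hh with h1 | h1
      · exact (S.c2_ord_t2_inf hV0 rel h1 hh).ge
      · exact (S.c2_ord_t2_zero hV0 rel h1 hh).le
    · rw [S.c2_ord_t2, ← hh, S.ord_g_of_regular (S.ord_j_of_unit hh.symm)]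
      simp

theorem Setting.z2_mem (S : Setting A 𝒪 φ h p j g inf zero) (he : 0 < e)
    (hV0 : V.coeff 0 ∉ A.nonunits) (rel : φ j * h ^ e = Polynomial.aeval h V) :
    h ^ e / φ g ∈ chart A ({h} : Set F') := by
  refine mem_chart_of S.G S.C0 ?_ ?_
  · rw [div_eq_mul_inv]
    exact 𝒪.mul_mem _ _ (𝒪.pow_mem S.C0.mem _) S.g_inv_mem
  · intro P hP
    rcases lt_or_eq_of_le hP with hh | hh
    · exact (S.c2_ord_z2_pos he hV0 rel hh).le
    · rw [S.c2_ord_z2, ← hh, S.ord_g_of_regular (S.ord_j_of_unit hh.symm)]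
      simp

theorem Setting.val_t2_inf (S : Setting A 𝒪 φ h p j g inf zero) (he : 0 < e)
    (hV0 : V.coeff 0 ∉ A.nonunits) (rel : φ j * h ^ e = Polynomial.aeval h V) {P' : Place Ω F'}
    (hP : res φ P' = inf) (hh : 0 < P'.ord h) :
    val P' (φ g * h ^ (e * (p - 1))) = V.coeff 0 ^ (p - 1) := by
  have e1 : φ g * h ^ (e * (p - 1)) = φ (g / j ^ (p - 1)) * (Polynomial.aeval h V) ^ (p - 1) := by
    rw [← rel, map_div₀, map_pow, mul_pow, pow_mul]
    have := S.phi_j_ne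
    field_simp
  have h1 := S.val_gj_inf hP
  have h4 := Dom2_val_pow (ord_aeval_nonneg P' hh.le V) (p - 1)
  rw [e1, val_mul P' h1.1 h4.1, h1.2, h4.2, val_aeval_of_ord_pos P' hh V, one_mul]

theorem Setting.val_t2_zero (S : Setting A 𝒪 φ h p j g inf zero) (he : 0 < e)
    (hV0 : V.coeff 0 ∉ A.nonunits) (rel : φ j * h ^ e = Polynomial.aeval h V) {P' : Place Ω F'}
    (hP : res φ P' = zero) (hh : 0 < P'.ord h) : val P' (φ g * h ^ (e * (p - 1))) = 0 :=
  aux_val_eq_zero P' (S.c2_ord_t2_zero hV0 rel hP hh)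

theorem Setting.val_z2 (S : Setting A 𝒪 φ h p j g inf zero) (he : 0 < e)
    (hV0 : V.coeff 0 ∉ A.nonunits) (rel : φ j * h ^ e = Polynomial.aeval h V) {P' : Place Ω F'}
    (hh : 0 < P'.ord h) : val P' (h ^ e / φ g) = 0 :=
  aux_val_eq_zero P' (S.c2_ord_z2_pos he hV0 rel hh)

end Fermat.Agent.S15.Mod.Cen
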