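import Fermat.Agent.S15.Mod.Cen.Red

/-!
# S15 / MOD / CEN : (I1) the zeros of `1 - ε t` reduce to the poles of `t`
-/

set_option autoImplicit false

noncomputable section

namespace Fermat.Agent.S15.Mod.Cen

open AlgebraicCurve Fermat.Agent.GR.E Fermat.Agent.S17.FF Fermat.Agent.GR.S.R Fermat.Agent.GR.S

variable {Ω F F' : Type} [Field Ω] [IsAlgClosed Ω] [CharZero Ω] [Field F] [Algebra Ω F] [IsFF Ω F]
  [Field F'] [Algebra Ω F'] [IsFF Ω F'] [HasPrincipalDivisors Ω F']
variable (φ : F →ₐ[Ω] F')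
variable {A : ValuationSubring Ω} {𝒪 : ValuationSubring F'} {h : F'}

omit [IsAlgClosed Ω] [CharZero Ω] [IsFF Ω F] in
theorem RedLe_ord_smul (P : Place Ω F) (c : Ω) (t : F) :
    min 0 (P.ord t) ≤ P.ord (algebraMap Ω F c * t) := by
  by_cases hc : c = 0
  · simp [hc]
  by_cases ht : t = 0
  · simp [ht]
  rw [Place.ord_mul P ((map_ne_zero _).2 hc) ht, S24.Zeros.ord_algebraMap, zero_add]
  exact min_le_right _ _

omit [IsAlgClosed Ω] [CharZero Ω] [IsFF Ω F] in
theorem RedLe_ord_one_sub (P : Place Ω F) (c : Ω) (t : F) :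
    min 0 (P.ord t) ≤ P.ord (1 - algebraMap Ω F c * t) := by
  by_cases hu : 1 - algebraMap Ω F c * t = 0
  · rw [hu, Place.ord_zero]
    exact min_le_left _ _
  have e : 1 - algebraMap Ω F c * t = 1 + algebraMap Ω F (-c) * t := by
    rw [map_neg]
    ring
  rw [e] at hu ⊢
  have h1 := S24.Zeros.min_ord_le_ord_add P hu
  rw [Place.ord_one] at h1
  have h2 := RedLe_ord_smul P (-c) t
  refine le_trans ?_ h1
  exact le_min (min_le_left _ _) h2

/-- **(I1)** `t` Gauss-integral, `ε ∈ 𝔪_A`: the zeros of `1 - ε t` reduce to the poles of `t`. -/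
theorem RedA_le (G : GaussData A 𝒪) (h0 : h ≠ 0) (C0 : RChart A 𝒪 h) (C1 : RChart A 𝒪 h⁻¹)
    (t : F) (ht : φ t ∈ 𝒪) (ε : Ω) (hε : ε ∈ A.nonunits) (D E : Divisor Ω F)
    (hD : ∀ P, D P ≤ max 0 (P.ord (1 - algebraMap Ω F ε * t)))
    (hE : ∀ P, max 0 (-(P.ord t)) ≤ E P) (s : Set F' ⊕ Set F') :
    RedA φ (red A h) D s ≤ RedA φ (red A h) E s := by
  set u : F := 1 - algebraMap Ω F ε * t with hu
  have hw : φ u - 1 ∈ 𝒪.nonunits := by
    have e : φ u - 1 = -(algebraMap Ω F' ε * φ t) := by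
      rw [hu, map_sub, map_one, map_mul, φ.commutes]
      ring
    rw [e]
    exact nu_neg (nu_mul_right ((algebraMap_mem_nonunits_iff G ε).2 hε) ht)
  have hz : RedA φ (red A h) (divf u) = 0 := by
    rw [RedA_divf]
    exact mapDomain_red_eq_zero G h0 C0 C1 hw
  let Z : Divisor Ω F := (divf (K := Ω) u).mapRange (fun n => max 0 n) (by simp)
  let Pol : Divisor Ω F := (divf (K := Ω) u).mapRange (fun n => max 0 (-n)) (by simp)
  have hZP : divf (K := Ω) u = Z - Pol := by
    refine Finsupp.ext fun P => ?_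
    rw [Finsupp.sub_apply, Finsupp.mapRange_apply, Finsupp.mapRange_apply]
    rcases le_total 0 (divf (K := Ω) u P) with h | h
    · rw [max_eq_right h, max_eq_left (by omega)]
      ring
    · rw [max_eq_left h, max_eq_right (by omega)]
      ring
  have hEq : RedA φ (red A h) Z s = RedA φ (red A h) Pol s := by
    rw [hZP, map_sub, sub_eq_zero] at hz
    rw [hz]
  calc RedA φ (red A h) D s ≤ RedA φ (red A h) Z s := RedA_mono φ _ (fun P => by
        rw [Finsupp.mapRange_apply, divf_apply]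
        exact hD P) s
    _ = RedA φ (red A h) Pol s := hEq
    _ ≤ RedA φ (red A h) E s := RedA_mono φ _ (fun P => by
        rw [Finsupp.mapRange_apply, divf_apply]
        refine le_trans ?_ (hE P)
        have : min 0 (P.ord t) ≤ P.ord u := RedLe_ord_one_sub P ε t
        rcases le_total 0 (P.ord t) with h | h
        · rw [min_eq_left h] at this
          rw [max_eq_left (by omega)]
          exact le_max_left _ _
        · rw [min_eq_right h] at this
          exact max_le_max le_rfl (by omega)) s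

theorem RedLe_ord_pos (G : GaussData A 𝒪) (t : F) (ht : φ t ∈ 𝒪) (x : Place Ω F)
    (hx : 0 ≤ x.ord t) (c : Ω) (hc : val x t = c) (hcA : c ∉ A) :
    1 ≤ x.ord (1 - algebraMap Ω F c⁻¹ * t) := by
  have hc0 : c ≠ 0 := by
    rintro rfl
    exact hcA (zero_mem A)
  have h1 : 0 ≤ x.ord (algebraMap Ω F (-c⁻¹) * t) := by
    have := RedLe_ord_smul x (-c⁻¹) t
    rwa [min_eq_left hx] at this
  have e : 1 - algebraMap Ω F c⁻¹ * t = algebraMap Ω F 1 + algebraMap Ω F (-c⁻¹) * t := by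
    rw [map_neg, map_one]
    ring
  have ha : ∀ a : Ω, 0 ≤ x.ord (algebraMap Ω F a) := fun a => (S24.Zeros.ord_algebraMap x a).ge
  have h2 : val x (1 - algebraMap Ω F c⁻¹ * t) = 0 := by
    rw [e, val_add x (ha 1) h1, val_mul x (ha _) hx, val_algebraMap, val_algebraMap, hc]
    field_simp
    ring
  have h3 : 0 ≤ x.ord (1 - algebraMap Ω F c⁻¹ * t) := by
    have := RedLe_ord_one_sub x c⁻¹ t
    rwa [min_eq_left hx] at this
  rcases (val_eq_zero_iff x h3).1 h2 with h4 | h4
  · exfalso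
    have h5 : t = algebraMap Ω F c := by
      have hne : algebraMap Ω F c⁻¹ ≠ 0 := (map_ne_zero _).2 (inv_ne_zero hc0)
      have : algebraMap Ω F c⁻¹ * t = algebraMap Ω F c⁻¹ * algebraMap Ω F c := by
        rw [← map_mul, inv_mul_cancel₀ hc0, map_one]
        exact (sub_eq_zero.1 h4).symm
      exact mul_left_cancel₀ hne this
    rw [h5, φ.commutes, G.const_mem] at ht
    exact hcA ht
  · omega

/-- the form in which (I1) is used. -/
theorem RedA_single_le (G : GaussData A 𝒪) (h0 : h ≠ 0) (C0 : RChart A 𝒪 h) (C1 : RChart A 𝒪 h⁻¹)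
    (t : F) (ht : φ t ∈ 𝒪) (x : Place Ω F) (hx : 0 ≤ x.ord t) (hv : val x t ∉ A)
    (E : Divisor Ω F) (hE : ∀ P, max 0 (-(P.ord t)) ≤ E P) (s : Set F' ⊕ Set F') :
    RedA φ (red A h) (Finsupp.single x 1) s ≤ RedA φ (red A h) E s := by
  classical
  refine RedA_le φ G h0 C0 C1 t ht (val x t)⁻¹ (inv_nu_of_not_mem hv) _ E (fun P => ?_) hE s
  rw [Finsupp.single_apply]
  split_ifs with hP
  · subst hP
    exact le_max_of_le_right (RedLe_ord_pos φ G t ht x hx _ rfl hv)
  · exact le_max_left _ _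

/-- (I1) for two distinct places with the same value of `t`. -/
theorem RedA_pair_le (G : GaussData A 𝒪) (h0 : h ≠ 0) (C0 : RChart A 𝒪 h) (C1 : RChart A 𝒪 h⁻¹)
    (t : F) (ht : φ t ∈ 𝒪) (x x' : Place Ω F) (hne : x ≠ x') (hx : 0 ≤ x.ord t)
    (hx' : 0 ≤ x'.ord t) (hv : val x t ∉ A) (hxx' : val x' t = val x t)
    (E : Divisor Ω F) (hE : ∀ P, max 0 (-(P.ord t)) ≤ E P) (s : Set F' ⊕ Set F') :
    RedA φ (red A h) (Finsupp.single x 1) s + RedA φ (red A h) (Finsupp.single x' 1) s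
      ≤ RedA φ (red A h) E s := by
  classical
  rw [← Finsupp.add_apply, ← map_add]
  refine RedA_le φ G h0 C0 C1 t ht (val x t)⁻¹ (inv_nu_of_not_mem hv) _ E (fun P => ?_) hE s
  rw [Finsupp.add_apply, Finsupp.single_apply, Finsupp.single_apply]
  by_cases hP : x = P
  · subst hP
    rw [if_pos rfl, if_neg (fun e => hne e.symm), add_zero]
    exact le_max_of_le_right (RedLe_ord_pos φ G t ht x hx _ rfl hv)
  · rw [if_neg hP, zero_add]
    split_ifs with hP'
    · subst hP'
      exact le_max_of_le_right (RedLe_ord_pos φ G t ht x' hx' _ hxx' hv)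
    · exact le_max_left _ _

end Fermat.Agent.S15.Mod.Cen
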