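import Fermat.Agent.S15.Mod.Cen.Chart1
import Fermat.Agent.S15.Mod.Cen.Chart2
import Fermat.Agent.S15.Mod.Cen.RedLe

/-!
# S15 / MOD / CEN : (I3) `j(x) ∉ A ⇒ (j g)(x) ∉ A`
-/

set_option autoImplicit false

noncomputable section

namespace Fermat.Agent.S15.Mod.Cen

open AlgebraicCurve Fermat.Agent.GR.E Fermat.Agent.S17.FF Fermat.Agent.GR.S.R Fermat.Agent.GR.S

variable {Ω F F' : Type} [Field Ω] [IsAlgClosed Ω] [CharZero Ω] [Field F] [Algebra Ω F] [IsFF Ω F]
  [Field F'] [Algebra Ω F'] [IsFF Ω F'] [HasPrincipalDivisors Ω F']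
variable {A : ValuationSubring Ω} {𝒪 : ValuationSubring F'} {φ : F →ₐ[Ω] F'} {h : F'}
  {p : ℕ} {j g : F} {inf zero : Place Ω F}

/-- the pole divisor of `j`. -/
theorem Setting.sep2_pole_le (S : Setting A 𝒪 φ h p j g inf zero) (P : Place Ω F) :
    max 0 (-(P.ord j)) ≤ (Finsupp.single inf (1 : ℤ) + Finsupp.single zero (p : ℤ)) P := by
  classical
  rw [Finsupp.add_apply, Finsupp.single_apply, Finsupp.single_apply]
  have h2 := S.two_le
  by_cases h1 : P = inf
  · subst h1
    rw [if_pos rfl, if_neg S.cd.ne, S.cd.inf_j]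
    simp
  · by_cases h3 : P = zero
    · subst h3
      rw [if_neg (Ne.symm h1), if_pos rfl, S.cd.zero_j]
      simp
    · rw [if_neg (Ne.symm h1), if_neg (Ne.symm h3)]
      have : 0 ≤ P.ord j := by
        by_contra hc
        rcases S.cd.pole P (not_le.mp hc) with h | h
        · exact h1 h
        · exact h3 h
      simp [this]

/-- a place where `j` is not `A`-integral reduces to a cusp. -/
theorem Setting.exists_cusp_red_eq (S : Setting A 𝒪 φ h p j g inf zero) {x : Place Ω F}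
    (hx : 0 ≤ x.ord j) (hv : val x j ∉ A) {P' : Place Ω F'} (hP : res φ P' = x) :
    ∃ c : Place Ω F', c.ord (φ j) < 0 ∧ red A h c = red A h P' := by
  have h1 := RedA_single_le φ S.G S.h0 S.C0 S.C1 j S.j_mem x hx hv _ S.sep2_pole_le (red A h P')
  have h2 : 0 < RedA φ (red A h) (Finsupp.single x 1) (red A h P') :=
    (RedA_single_pos_iff φ (red A h) x _).2 ⟨P', hP, rfl⟩
  have h3 : Finsupp.single zero (p : ℤ) = (p : ℤ) • Finsupp.single zero (1 : ℤ) := by
    rw [Finsupp.smul_single, smul_eq_mul, mul_one]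
  rw [map_add, h3, map_zsmul, Finsupp.add_apply, Finsupp.smul_apply, smul_eq_mul] at h1
  have hp := S.two_le
  by_cases h4 : 0 < RedA φ (red A h) (Finsupp.single inf 1) (red A h P')
  · obtain ⟨c, hc, hr⟩ := (RedA_single_pos_iff φ (red A h) inf _).1 h4
    exact ⟨c, S.ord_j_neg_inf hc, hr⟩
  · have h5 : 0 < RedA φ (red A h) (Finsupp.single zero 1) (red A h P') := by
      by_contra h6
      have : (p : ℤ) * RedA φ (red A h) (Finsupp.single zero 1) (red A h P') ≤ 0 :=
        mul_nonpos_of_nonneg_of_nonpos (by omega) (not_lt.mp h6)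
      omega
    obtain ⟨c, hc, hr⟩ := (RedA_single_pos_iff φ (red A h) zero _).1 h5
    exact ⟨c, S.ord_j_neg_zero hc, hr⟩

/-- **(I3)** -/
theorem Setting.val_jg_not_mem (S : Setting A 𝒪 φ h p j g inf zero) {x : Place Ω F}
    (hx : 0 ≤ x.ord j) (hv : val x j ∉ A) : val x (j * g) ∉ A := by
  obtain ⟨P', hP⟩ := exists_restrictAlong_eq φ x
  obtain ⟨c, hc, hr⟩ := S.exists_cusp_red_eq hx hv hP
  have hE := ramificationIndexAlong_pos φ P'
  -- orders and values at `P'`
  have oj : 0 ≤ P'.ord (φ j) := by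
    rw [ord_map, hP]
    exact mul_nonneg hE.le hx
  have og : P'.ord (φ g) = 0 := S.ord_g_of_regular oj
  have ogx : x.ord g = 0 := by
    rw [ord_map, hP] at og
    exact (mul_eq_zero.mp og).resolve_left hE.ne'
  have vj : val P' (φ j) = val x j := by rw [val_map φ P' (by rw [hP]; exact hx), hP]
  have vg : val P' (φ g) = val x g := by rw [val_map φ P' (by rw [hP, ogx]), hP]
  have hb : val x g ≠ 0 := by
    intro h0
    rcases (val_eq_zero_iff x ogx.ge).1 h0 with h1 | h1
    · exact S.g_ne h1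
    · omega
  have ha : val x j ≠ 0 := fun h0 => hv (h0 ▸ A.zero_mem)
  rw [val_mul x hx ogx.ge]
  apply sep_not_mem_of_inv_mem (mul_ne_zero ha hb)
  have vginv : val P' (φ g)⁻¹ = (val x g)⁻¹ := by
    rw [← vg]
    exact eq_inv_of_mul_eq_one_right (Dom2_val_inv S.phi_g_ne og)
  have oginv : 0 ≤ P'.ord (φ g)⁻¹ := by rw [Place.ord_inv, og, neg_zero]
  obtain ⟨oh, -⟩ := S.br.val_cases S.h0 oj (by rw [vj]; exact hv)
  rcases lt_or_gt_of_ne (S.br.ord_ne_zero S.h0 hc) with a1 | a1
  · -- `c` is a pole of `h`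
    rw [sep_red_of_not_dom (sep_not_dom_of_ord_neg a1)] at hr
    have hD : ¬ Dom A h P' := by
      intro hD
      rw [sep_red_of_dom hD] at hr
      exact Sum.inr_ne_inl hr
    rw [sep_red_of_not_dom hD] at hr
    have hk : ker A h⁻¹ c = ker A h⁻¹ P' := Sum.inr.inj hr
    have hm : (h * φ g)⁻¹ ∈ ker A h⁻¹ c :=
      ⟨S.z1_mem, by rw [S.val_z1 a1]; exact A.nonunits.zero_mem⟩
    rw [hk] at hm
    have hz := hm.2
    have hη : val P' h ∉ A := fun h1 => hD ⟨oh, h1⟩
    have hη0 : val P' h ≠ 0 := fun h0 => hη (h0 ▸ A.zero_mem)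
    have oh0 : P'.ord h = 0 := Dom2_ord_eq_zero oh hη0
    have vhinv : val P' h⁻¹ = (val P' h)⁻¹ :=
      eq_inv_of_mul_eq_one_right (Dom2_val_inv S.h0 oh0)
    rw [mul_inv, val_mul P' (by rw [Place.ord_inv, oh0, neg_zero]) oginv, vhinv, vginv] at hz
    obtain ⟨-, h3⟩ := S.br.val_of_not_mem oh hη
    rw [vj] at h3
    obtain ⟨u0, u1⟩ := sep_unit_of_sub_mem Dom2_one_not_mem_nonunits h3
    have := Dom_nonunits_mul A u1 hz
    convert this using 1
    field_simp
  · -- `c` is a zero of `h`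
    rw [sep_red_of_dom (sep_dom_of_ord_pos a1)] at hr
    have hD : Dom A h P' := by
      by_contra hD
      rw [sep_red_of_not_dom hD] at hr
      exact Sum.inl_ne_inr hr
    rw [sep_red_of_dom hD] at hr
    have hk : ker A h c = ker A h P' := Sum.inl.inj hr
    have hmh : h ∈ ker A h c :=
      ⟨self_mem_chart, by rw [aux_val_eq_zero c a1]; exact A.nonunits.zero_mem⟩
    rw [hk] at hmh
    have hη := hmh.2
    rcases S.br.V with hV | ⟨e, V, he, hVA, hV0, rel⟩
    · rw [← hV] at hc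
      omega
    · have hm : h ^ e / φ g ∈ ker A h c :=
        ⟨S.z2_mem he hV0 rel, by rw [S.val_z2 he hV0 rel a1]; exact A.nonunits.zero_mem⟩
      rw [hk] at hm
      have hz := hm.2
      have hpow := Dom2_val_pow oh e
      rw [div_eq_mul_inv, val_mul P' hpow.1 oginv, hpow.2, vginv] at hz
      have h3 := (val_aeval_sub_mem P' oh hη V hVA).2
      rw [← rel, val_mul P' oj hpow.1, hpow.2, vj] at h3
      obtain ⟨u0, u1⟩ := sep_unit_of_sub_mem hV0 h3
      have := Dom_nonunits_mul A u1 hz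
      convert this using 1
      have hη0 : val P' h ^ e ≠ 0 := right_ne_zero_of_mul u0
      field_simp

end Fermat.Agent.S15.Mod.Cen
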