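import Fermat.Agent.S15.Mod.Cen.Sep
import Fermat.Agent.S15.Mod.Cen.Sep2

/-!
# S15 / MOD / CEN : the abstract theorems
-/

set_option autoImplicit false

noncomputable section

namespace Fermat.Agent.S15.Mod.Cen

open AlgebraicCurve Fermat.Agent.GR.E Fermat.Agent.S17.FF Fermat.Agent.GR.S.R Fermat.Agent.GR.S

variable {Ω F F' : Type} [Field Ω] [IsAlgClosed Ω] [CharZero Ω] [Field F] [Algebra Ω F] [IsFF Ω F]
  [Field F'] [Algebra Ω F'] [IsFF Ω F'] [HasPrincipalDivisors Ω F']
variable {A : ValuationSubring Ω} {𝒪 : ValuationSubring F'} {φ : F →ₐ[Ω] F'} {h : F'}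
  {p : ℕ} {j g : F} {inf zero : Place Ω F}

theorem Main_j_ne_zero (cd : CData p j g inf zero) : j ≠ 0 := by
  rintro rfl
  have := cd.inf_j
  rw [Place.ord_zero] at this
  omega

theorem Main_g_ne_zero (hp : 2 ≤ p) (cd : CData p j g inf zero) : g ≠ 0 := by
  rintro rfl
  have := cd.inf_g
  rw [Place.ord_zero] at this
  omega

theorem Main_ne_cusps (hp : 2 ≤ p) (cd : CData p j g inf zero) {x : Place Ω F}
    (hx : 0 ≤ x.ord j) : x ≠ inf ∧ x ≠ zero := by
  constructor
  · rintro rfl
    have := cd.inf_j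
    omega
  · rintro rfl
    have := cd.zero_j
    omega

theorem Main_ord_j_nonneg (cd : CData p j g inf zero) {P : Place Ω F} (h1 : P ≠ inf)
    (h2 : P ≠ zero) : 0 ≤ P.ord j := by
  by_contra hlt
  rcases cd.pole P (not_le.mp hlt) with h | h
  · exact h1 h
  · exact h2 h

theorem Main_RedA_single {S : Type} (r : Place Ω F' → S) (P : Place Ω F) (n : ℤ) (s : S) :
    RedA φ r (Finsupp.single P n) s = n * RedA φ r (Finsupp.single P 1) s := by
  have h : (Finsupp.single P n : Divisor Ω F) = n • (Finsupp.single P 1 : Divisor Ω F) := by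
    rw [Finsupp.smul_single, smul_eq_mul, mul_one]
  rw [h, map_zsmul, Finsupp.smul_apply, smul_eq_mul]

theorem Main_RedA_nonneg {S : Type} (r : Place Ω F' → S) (P : Place Ω F) (s : S) :
    0 ≤ RedA φ r (Finsupp.single P 1) s := by
  have h := RedA_mono φ r (D := 0) (E := Finsupp.single P 1) (fun Q => by
    classical
    rw [Finsupp.single_apply]
    split_ifs <;> simp) s
  rwa [map_zero, Finsupp.zero_apply] at h

/-- the common end of `cen_inf` and `cen_zero`. -/
theorem Main_eq_of_le {S : Type} (r : Place Ω F' → S) (x c c' : Place Ω F) (m n : ℤ)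
    (h1 : ∀ s, RedA φ r (Finsupp.single x 1) s ≤ m * RedA φ r (Finsupp.single c 1) s)
    (h2 : ∀ s, RedA φ r (Finsupp.single x 1) s ≤
      RedA φ r (Finsupp.single c 1) s + n * RedA φ r (Finsupp.single c' 1) s)
    (hd : ∀ s, 0 < RedA φ r (Finsupp.single c 1) s → RedA φ r (Finsupp.single c' 1) s = 0) :
    RedA φ r (Finsupp.single x 1) = RedA φ r (Finsupp.single c 1) := by
  refine eq_of_le_of_sum_eq (fun s => ?_) (by rw [sum_RedA_single, sum_RedA_single])
  have hc := Main_RedA_nonneg (φ := φ) r c s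
  by_cases hpos : 0 < RedA φ r (Finsupp.single x 1) s
  · have hc' : 0 < RedA φ r (Finsupp.single c 1) s := by
      rcases hc.lt_or_eq with h | h
      · exact h
      · have := h1 s
        rw [← h, mul_zero] at this
        omega
    have := h2 s
    rwa [hd s hc', mul_zero, add_zero] at this
  · exact le_trans (not_lt.mp hpos) hc

/-- `g(x) ∉ A`: `x` reduces to `∞`. -/
theorem Setting.cen_inf (S : Setting A 𝒪 φ h p j g inf zero) {x : Place Ω F}
    (hx : 0 ≤ x.ord j) (hv : val x j ∉ A) (hg : val x g ∉ A) :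
    RedA φ (red A h) (Finsupp.single x 1) = RedA φ (red A h) (Finsupp.single inf 1) := by
  classical
  obtain ⟨hxi, hxz⟩ := Main_ne_cusps S.hp S.cd hx
  have hp := S.hp
  refine Main_eq_of_le (red A h) x inf zero ((p : ℤ) - 1) (p : ℤ) (fun s => ?_) (fun s => ?_)
    (fun s hs => S.RedA_disjoint s hs)
  · rw [← Main_RedA_single]
    refine RedA_single_le φ S.G S.h0 S.C0 S.C1 g S.g_mem x (by rw [S.cd.unit_g x hxi hxz]) hg _
      (fun P => ?_) s
    rw [Finsupp.single_apply]
    by_cases h1 : P = inf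
    · subst h1
      rw [if_pos rfl, S.cd.inf_g]
      omega
    · rw [if_neg (Ne.symm h1)]
      by_cases h2 : P = zero
      · subst h2
        rw [S.cd.zero_g]
        omega
      · rw [S.cd.unit_g P h1 h2]
        simp
  · rw [← Main_RedA_single (φ := φ) (red A h) zero (p : ℤ), ← Finsupp.add_apply, ← map_add]
    refine RedA_single_le φ S.G S.h0 S.C0 S.C1 j S.j_mem x hx hv _ (fun P => ?_) s
    rw [Finsupp.add_apply, Finsupp.single_apply, Finsupp.single_apply]
    by_cases h1 : P = inf
    · subst h1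
      rw [if_pos rfl, if_neg S.cd.ne, S.cd.inf_j]
      omega
    · rw [if_neg (Ne.symm h1)]
      by_cases h2 : P = zero
      · subst h2
        rw [if_pos rfl, S.cd.zero_j]
        omega
      · rw [if_neg (Ne.symm h2)]
        have := Main_ord_j_nonneg S.cd h1 h2
        omega

/-- `(j^(p-1)/g)(x) ∉ A`: `x` reduces to `0`. -/
theorem Setting.cen_zero (S : Setting A 𝒪 φ h p j g inf zero) {x : Place Ω F}
    (hx : 0 ≤ x.ord j) (hv : val x j ∉ A) (hg : val x (j ^ (p - 1) / g) ∉ A) :
    RedA φ (red A h) (Finsupp.single x 1) = RedA φ (red A h) (Finsupp.single zero 1) := by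
  classical
  obtain ⟨hxi, hxz⟩ := Main_ne_cusps S.hp S.cd hx
  have hp := S.hp
  have hj0 := Main_j_ne_zero S.cd
  have hg0 := Main_g_ne_zero S.hp S.cd
  have hcast : ((p - 1 : ℕ) : ℤ) = (p : ℤ) - 1 := by
    rw [Nat.cast_sub (by omega)]; simp
  have hord : ∀ P : Place Ω F, P.ord (j ^ (p - 1) / g) = ((p : ℤ) - 1) * P.ord j - P.ord g := by
    intro P
    rw [div_eq_mul_inv, P.ord_mul (pow_ne_zero _ hj0) (inv_ne_zero hg0), P.ord_inv,
      ← zpow_natCast, P.ord_zpow, hcast]
    ring
  have hord' : ∀ P : Place Ω F, P.ord (j * g) = P.ord j + P.ord g := fun P => P.ord_mul hj0 hg0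
  refine Main_eq_of_le (red A h) x zero inf (((p : ℤ) - 1) * ((p : ℤ) + 1)) (p : ℤ) (fun s => ?_)
    (fun s => ?_) (fun s hs => ?_)
  · rw [← Main_RedA_single]
    have hmem : φ (j ^ (p - 1) / g) ∈ 𝒪 := by
      rw [map_div₀, map_pow, div_eq_mul_inv]
      exact 𝒪.mul_mem _ _ (𝒪.pow_mem S.j_mem _) S.g_inv_mem
    refine RedA_single_le φ S.G S.h0 S.C0 S.C1 _ hmem x ?_ hg _ (fun P => ?_) s
    · rw [hord, S.cd.unit_g x hxi hxz, sub_zero]
      exact mul_nonneg (by omega) hx
    rw [Finsupp.single_apply, hord]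
    by_cases h2 : P = zero
    · subst h2
      rw [if_pos rfl, S.cd.zero_j, S.cd.zero_g]
      apply max_le
      · exact mul_nonneg (by omega) (by omega)
      · apply le_of_eq; ring
    · rw [if_neg (Ne.symm h2)]
      by_cases h1 : P = inf
      · subst h1
        rw [S.cd.inf_j, S.cd.inf_g]
        apply max_le le_rfl
        apply le_of_eq; ring
      · rw [S.cd.unit_g P h1 h2, sub_zero]
        apply max_le le_rfl
        have := mul_nonneg (show (0 : ℤ) ≤ (p : ℤ) - 1 by omega) (Main_ord_j_nonneg S.cd h1 h2)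
        omega
  · rw [← Main_RedA_single (φ := φ) (red A h) inf (p : ℤ), ← Finsupp.add_apply, ← map_add]
    have hmem : φ (j * g) ∈ 𝒪 := by
      rw [map_mul]
      exact 𝒪.mul_mem _ _ S.j_mem S.g_mem
    refine RedA_single_le φ S.G S.h0 S.C0 S.C1 _ hmem x ?_ (S.val_jg_not_mem hx hv) _
      (fun P => ?_) s
    · rw [hord', S.cd.unit_g x hxi hxz, add_zero]
      exact hx
    rw [Finsupp.add_apply, Finsupp.single_apply, Finsupp.single_apply, hord']
    by_cases h1 : P = inf
    · subst h1
      rw [if_pos rfl, if_neg S.cd.ne, S.cd.inf_j, S.cd.inf_g]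
      omega
    · rw [if_neg (Ne.symm h1)]
      by_cases h2 : P = zero
      · subst h2
        rw [if_pos rfl, S.cd.zero_j, S.cd.zero_g]
        omega
      · rw [if_neg (Ne.symm h2), S.cd.unit_g P h1 h2]
        have := Main_ord_j_nonneg S.cd h1 h2
        omega
  · rcases (Main_RedA_nonneg (φ := φ) (red A h) inf s).lt_or_eq with h' | h'
    · rw [S.RedA_disjoint s h'] at hs
      exact absurd hs (lt_irrefl _)
    · exact h'.symm

/-- at most one place over a given non-integral value of `j` reduces to `∞`. -/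
theorem Setting.uniq (S : Setting A 𝒪 φ h p j g inf zero) {x x' : Place Ω F}
    (hx : 0 ≤ x.ord j) (hx' : 0 ≤ x'.ord j) (hv : val x j ∉ A) (hxx' : val x' j = val x j)
    (hg : val x g ∉ A) (hg' : val x' g ∉ A) : x = x' := by
  classical
  by_contra hne
  have e1 := S.cen_inf hx hv hg
  have e2 := S.cen_inf hx' (by rw [hxx']; exact hv) hg'
  obtain ⟨P', hP'⟩ := exists_restrictAlong_eq φ inf
  have hpos : 0 < RedA φ (red A h) (Finsupp.single inf 1) (red A h P') :=
    (RedA_single_pos_iff φ (red A h) inf _).mpr ⟨P', hP', rfl⟩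
  have hp := S.hp
  have key := RedA_pair_le φ S.G S.h0 S.C0 S.C1 j S.j_mem x x' hne hx hx' hv hxx'
    (Finsupp.single inf 1 + Finsupp.single zero (p : ℤ)) (fun P => by
      rw [Finsupp.add_apply, Finsupp.single_apply, Finsupp.single_apply]
      by_cases h1 : P = inf
      · subst h1
        rw [if_pos rfl, if_neg S.cd.ne, S.cd.inf_j]
        omega
      · rw [if_neg (Ne.symm h1)]
        by_cases h2 : P = zero
        · subst h2
          rw [if_pos rfl, S.cd.zero_j]
          omega
        · rw [if_neg (Ne.symm h2)]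
          have := Main_ord_j_nonneg S.cd h1 h2
          omega) (red A h P')
  rw [e1, e2, map_add, Finsupp.add_apply, Main_RedA_single (φ := φ) (red A h) zero (p : ℤ),
    S.RedA_disjoint _ hpos, mul_zero, add_zero] at key
  omega

end Fermat.Agent.S15.Mod.Cen
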