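import Fermat.Agent.GR.S.R.Main
import Fermat.Agent.GR.S.K1

/-!
# S15 / MOD / CEN : centre of a place at a prime where `j` is not integral (definitions)

Abstract layer.  `Ω` algebraically closed of characteristic `0`, `A` a valuation subring of `Ω`,
`φ : F → F'` an inclusion of function fields (`F = FF Q̄ p`, `F' = FF Q̄ N'`), `𝒪` the Gauss ring of
`F'`, `h : F'` the base function of the model, `r = GR.S.R.red A h` the reduction classes of places
of `F'`.  `j g : F`, `g = Δ(q)/Δ(q^p)`, `inf zero` the two cusps of `F`.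
-/

set_option autoImplicit false

noncomputable section

namespace Fermat.Agent.S15.Mod.Cen

open AlgebraicCurve Fermat.Agent.GR.E Fermat.Agent.S17.FF Fermat.Agent.GR.S.R Fermat.Agent.GR.S

variable {Ω F F' : Type} [Field Ω] [IsAlgClosed Ω] [CharZero Ω] [Field F] [Algebra Ω F] [IsFF Ω F]
  [Field F'] [Algebra Ω F'] [IsFF Ω F'] [HasPrincipalDivisors Ω F']

/-- pull back to `F'`, then reduce the points. -/
def RedA {S : Type} (φ : F →ₐ[Ω] F') (r : Place Ω F' → S) : Divisor Ω F →+ (S →₀ ℤ) :=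
  (Finsupp.mapDomain.addMonoidHom r).comp (Divisor.pullbackAlong φ (isIntegral_along' φ))

/-- the place of `F` below a place of `F'`. -/
def res (φ : F →ₐ[Ω] F') (P' : Place Ω F') : Place Ω F :=
  P'.restrictAlong φ (isIntegral_along' φ)

/-- the two cusps of `F` and the orders of `j` and `g` there. -/
structure CData (p : ℕ) (j g : F) (inf zero : Place Ω F) : Prop where
  ne : zero ≠ inf
  pole : ∀ P : Place Ω F, P.ord j < 0 → P = inf ∨ P = zero
  inf_j : inf.ord j = -1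
  zero_j : zero.ord j = -(p : ℤ)
  inf_g : inf.ord g = 1 - (p : ℤ)
  zero_g : zero.ord g = (p : ℤ) - 1
  unit_g : ∀ P : Place Ω F, P ≠ inf → P ≠ zero → P.ord g = 0
  val_inf : val inf (g / j ^ (p - 1)) = 1

/-- the relation between the base function `h` of the model and `J = j`:
`J = h U(1/h)`, `U(0) = 1`, and (`h = J` or `J h^e = V(h)`, `V(0)` a unit). -/
structure BaseRel (A : ValuationSubring Ω) (h J : F') : Prop where
  U : ∃ U : Polynomial Ω, (∀ n, U.coeff n ∈ A) ∧ U.coeff 0 = 1 ∧ J = h * Polynomial.aeval h⁻¹ U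
  V : h = J ∨ ∃ (e : ℕ) (V : Polynomial Ω), 0 < e ∧ (∀ n, V.coeff n ∈ A) ∧
    V.coeff 0 ∉ A.nonunits ∧ J * h ^ e = Polynomial.aeval h V

/-- all hypotheses of the abstract layer. -/
structure Setting (A : ValuationSubring Ω) (𝒪 : ValuationSubring F') (φ : F →ₐ[Ω] F') (h : F')
    (p : ℕ) (j g : F) (inf zero : Place Ω F) : Prop where
  hp : 2 ≤ p
  G : GaussData A 𝒪
  h0 : h ≠ 0
  C0 : RChart A 𝒪 h
  C1 : RChart A 𝒪 h⁻¹
  cd : CData p j g inf zero
  br : BaseRel A h (φ j)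
  g_mem : φ g ∈ 𝒪
  g_inv_mem : (φ g)⁻¹ ∈ 𝒪
  j_mem : φ j ∈ 𝒪
  j_inv_mem : (φ j)⁻¹ ∈ 𝒪

end Fermat.Agent.S15.Mod.Cen
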