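import Fermat.Agent.S15.Mod.Cen.Defs

/-!
# S15 / MOD / CEN : orders and values of `h`, `j`, `g` at the places of `F'`
-/

set_option autoImplicit false

noncomputable section

namespace Fermat.Agent.S15.Mod.Cen

open AlgebraicCurve Fermat.Agent.GR.E Fermat.Agent.S17.FF Fermat.Agent.GR.S.R Fermat.Agent.GR.S

variable {Ω F F' : Type} [Field Ω] [IsAlgClosed Ω] [CharZero Ω] [Field F] [Algebra Ω F] [IsFF Ω F]
  [Field F'] [Algebra Ω F'] [IsFF Ω F'] [HasPrincipalDivisors Ω F']

section general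

variable {A : ValuationSubring Ω} {𝒪 : ValuationSubring F'} {x : F'}

/-- `chart = chartAlg ∩ Gauss ring`. -/
theorem mem_chart_of (G : GaussData A 𝒪) (hC : RChart A 𝒪 x) {f : F'} (hf : f ∈ 𝒪)
    (hord : ∀ P : Place Ω F', 0 ≤ P.ord x → 0 ≤ P.ord f) : f ∈ chart A ({x} : Set F') := by
  have h1 : f ∈ chartAlg Ω x := (mem_chartAlg_iff hC.transc f).2 hord
  obtain ⟨a, -, ha0, hmem⟩ := exists_smul_mem_chart (A := A) h1
  have ha : algebraMap Ω F' a ≠ 0 := (map_ne_zero _).2 ha0
  have h2 := hC.sat _ hmem a ha0 (by rwa [mul_div_cancel_left₀ _ ha])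
  rwa [mul_div_cancel_left₀ _ ha] at h2

theorem Ord_add_nonneg (P : Place Ω F') {a b : F'} (ha : 0 ≤ P.ord a) (hb : 0 ≤ P.ord b) :
    0 ≤ P.ord (a + b) :=
  S24.Zeros.ord_nonneg_of_mem P (add_mem (S24.Zeros.mem_of_ord_nonneg P ha)
    (S24.Zeros.mem_of_ord_nonneg P hb))

theorem Ord_mul_nonneg (P : Place Ω F') {a b : F'} (ha : 0 ≤ P.ord a) (hb : 0 ≤ P.ord b) :
    0 ≤ P.ord (a * b) :=
  S24.Zeros.ord_nonneg_of_mem P (mul_mem (S24.Zeros.mem_of_ord_nonneg P ha)
    (S24.Zeros.mem_of_ord_nonneg P hb))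

/-- evaluation commutes with polynomials. -/
theorem Ord_aeval (P : Place Ω F') {y : F'} (hy : 0 ≤ P.ord y) (U : Polynomial Ω) :
    0 ≤ P.ord (Polynomial.aeval y U) ∧ val P (Polynomial.aeval y U) = U.eval (val P y) := by
  induction U using Polynomial.induction_on' with
  | add p q hp hq =>
    rw [map_add, Polynomial.eval_add]
    exact ⟨Ord_add_nonneg P hp.1 hq.1, by rw [val_add P hp.1 hq.1, hp.2, hq.2]⟩
  | monomial n a =>
    rw [Polynomial.aeval_monomial, Polynomial.eval_monomial]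
    have h1 := Dom2_val_pow hy n
    have h2 : 0 ≤ P.ord (algebraMap Ω F' a) := (S24.Zeros.ord_algebraMap P a).ge
    exact ⟨Ord_mul_nonneg P h2 h1.1, by rw [val_mul P h2 h1.1, val_algebraMap, h1.2]⟩

/-- value of a polynomial with `A`-coefficients at a function with value in `𝔪_A`. -/
theorem val_aeval_sub_mem (P : Place Ω F') {y : F'} (hy : 0 ≤ P.ord y) (hv : val P y ∈ A.nonunits)
    (U : Polynomial Ω) (hU : ∀ n, U.coeff n ∈ A) :
    0 ≤ P.ord (Polynomial.aeval y U) ∧ val P (Polynomial.aeval y U) - U.coeff 0 ∈ A.nonunits := by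
  obtain ⟨h1, h2⟩ := Ord_aeval P hy U
  refine ⟨h1, ?_⟩
  rw [h2]
  have h3 : U.eval (val P y) - U.coeff 0 = U.divX.eval (val P y) * val P y := by
    conv_lhs => rw [← Polynomial.divX_mul_X_add U]
    simp
  rw [h3]
  refine nu_mul_left ?_ hv
  rw [Polynomial.eval_eq_sum_range]
  refine sum_mem fun i _ => mul_mem ?_ (pow_mem (nu_mem hv) i)
  rw [Polynomial.coeff_divX]
  exact hU _

theorem ord_aeval_nonneg (P : Place Ω F') {y : F'} (hy : 0 ≤ P.ord y) (U : Polynomial Ω) :
    0 ≤ P.ord (Polynomial.aeval y U) :=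
  (Ord_aeval P hy U).1

/-- if `y` vanishes at `P`, the value of `U(y)` is `U(0)`. -/
theorem val_aeval_of_ord_pos (P : Place Ω F') {y : F'} (hy : 0 < P.ord y) (U : Polynomial Ω) :
    val P (Polynomial.aeval y U) = U.coeff 0 := by
  rw [(Ord_aeval P hy.le U).2, (val_eq_zero_iff P hy.le).2 (Or.inr hy),
    Polynomial.coeff_zero_eq_eval_zero]

variable (φ : F →ₐ[Ω] F')

theorem ord_map (P' : Place Ω F') (f : F) :
    P'.ord (φ f) = Place.ramificationIndexAlong φ P' *
      (res φ P').ord f :=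
  Place.ord_restrictAlong φ (isIntegral_along' φ) P' f

theorem ramificationIndexAlong_pos (P' : Place Ω F') :
    0 < (Place.ramificationIndexAlong φ P' : ℤ) := by
  let _ := algebraAlong φ
  have := isScalarTower_along φ
  have := isIntegral_along φ (isIntegral_along' φ)
  exact_mod_cast P'.ramificationIndex_pos (F := F)

theorem val_map (P' : Place Ω F') {f : F}
    (hf : 0 ≤ (res φ P').ord f) :
    val P' (φ f) = val (res φ P') f := by
  have he := ramificationIndexAlong_pos φ P'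
  have h1 : 0 ≤ P'.ord (φ f) := by
    rw [ord_map]
    exact mul_nonneg he.le hf
  rw [val_eq_iff P' h1]
  rcases (val_eq_iff (res φ P') hf _).1 rfl with h | h
  · left
    conv_lhs => rw [h]
    exact φ.commutes _
  · right
    rw [← φ.commutes, ← map_sub, ord_map]
    exact mul_pos he h

end general

end Fermat.Agent.S15.Mod.Cen
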