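import Fermat.Agent.S15.Mod.Cen.Defs

/-!
# S15 / MOD / CEN : formal properties of `RedA`
-/

set_option autoImplicit false

noncomputable section

namespace Fermat.Agent.S15.Mod.Cen

open AlgebraicCurve Fermat.Agent.GR.E Fermat.Agent.S17.FF Fermat.Agent.GR.S.R Fermat.Agent.GR.S

variable {Ω F F' : Type} [Field Ω] [IsAlgClosed Ω] [CharZero Ω] [Field F] [Algebra Ω F] [IsFF Ω F]
  [Field F'] [Algebra Ω F'] [IsFF Ω F'] [HasPrincipalDivisors Ω F']
variable {S : Type} (φ : F →ₐ[Ω] F') (r : Place Ω F' → S)

theorem RedA_apply (D : Divisor Ω F) :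
    RedA φ r D = Finsupp.mapDomain r (Divisor.pullbackAlong φ (isIntegral_along' φ) D) := rfl

theorem RedA_divf (f : F) : RedA φ r (divf f) = Finsupp.mapDomain r (divf (φ f)) := by
  rw [RedA_apply, pullbackAlong_divf]

open Classical in
theorem Red_mapDomain_apply {α β : Type} (r : α → β) (X : α →₀ ℤ) (s : β) :
    Finsupp.mapDomain r X s = ∑ a ∈ X.support, if r a = s then X a else 0 := by
  rw [Finsupp.mapDomain, Finsupp.sum_apply, Finsupp.sum]
  refine Finset.sum_congr rfl fun a _ => ?_
  rw [Finsupp.single_apply]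

theorem Red_mapDomain_nonneg {α β : Type} (r : α → β) (X : α →₀ ℤ) (hX : ∀ a, 0 ≤ X a) (s : β) :
    0 ≤ Finsupp.mapDomain r X s := by
  classical
  rw [Red_mapDomain_apply]
  refine Finset.sum_nonneg fun a _ => ?_
  split_ifs
  · exact hX a
  · exact le_rfl

theorem Red_pullback_nonneg {D : Divisor Ω F} (h : ∀ P, 0 ≤ D P) (w : Place Ω F') :
    0 ≤ Divisor.pullbackAlong φ (isIntegral_along' φ) D w := by
  rw [Divisor.pullbackAlong_apply]
  exact mul_nonneg (Int.natCast_nonneg _) (h _)

/-- `RedA` is monotone. -/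
theorem RedA_mono {D E : Divisor Ω F} (h : ∀ P, D P ≤ E P) (s : S) :
    RedA φ r D s ≤ RedA φ r E s := by
  have h1 : 0 ≤ RedA φ r (E - D) s := by
    rw [RedA_apply]
    refine Red_mapDomain_nonneg r _ (Red_pullback_nonneg φ fun P => ?_) s
    rw [Finsupp.sub_apply]
    exact sub_nonneg.2 (h P)
  rw [map_sub, Finsupp.sub_apply] at h1
  exact sub_nonneg.1 h1

/-- the total degree of `RedA (P)` is `[F' : F]`. -/
theorem sum_RedA_single (P : Place Ω F) :
    (RedA φ r (Finsupp.single P 1)).sum (fun _ n => n) = (finrankAlong Ω φ : ℤ) := by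
  rw [RedA_apply, Finsupp.sum_mapDomain_index (fun _ => rfl) (fun _ _ _ => rfl)]
  have h2 := Divisor.degree_pullbackAlong φ (isIntegral_along' φ)
    (fundamentalIdentityAlong φ (isIntegral_along' φ)) (Finsupp.single P 1)
  rw [degree_eq_sum, degree_single', mul_one] at h2
  exact h2

theorem finrankAlong_pos : 0 < finrankAlong Ω φ := by
  letI := algebraAlong φ
  haveI : Module.Finite F F' := finiteAlong φ
  exact Module.finrank_pos (R := F) (M := F')

theorem Red_ram_pos (P' : Place Ω F') : 0 < Place.ramificationIndexAlong φ P' := by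
  letI := algebraAlong φ
  haveI := isScalarTower_along φ
  haveI := isIntegral_along φ (isIntegral_along' φ)
  exact P'.ramificationIndex_pos (F := F)

/-- the support of `RedA (P)` consists of the classes of the places above `P`. -/
theorem RedA_single_pos_iff (P : Place Ω F) (s : S) :
    0 < RedA φ r (Finsupp.single P 1) s ↔
      ∃ P' : Place Ω F', res φ P' = P ∧ r P' = s := by
  classical
  have hnn : ∀ w, 0 ≤ Divisor.pullbackAlong φ (isIntegral_along' φ) (Finsupp.single P 1) w :=
    Red_pullback_nonneg φ fun Q => by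
      rw [Finsupp.single_apply]
      split_ifs <;> norm_num
  rw [RedA_apply, Red_mapDomain_apply]
  constructor
  · intro h
    obtain ⟨P', _, hP'⟩ := Finset.exists_lt_of_sum_lt (s := (Divisor.pullbackAlong φ
      (isIntegral_along' φ) (Finsupp.single P 1)).support) (f := fun _ => (0 : ℤ))
      (by simpa using h)
    by_cases hr : r P' = s
    · refine ⟨P', ?_, hr⟩
      rw [if_pos hr, Divisor.pullbackAlong_apply, Finsupp.single_apply] at hP'
      by_contra hne
      rw [if_neg (fun e => hne e.symm)] at hP'
      simp at hP'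
    · rw [if_neg hr] at hP'
      exact absurd hP' (lt_irrefl _)
  · rintro ⟨P', hP, hr⟩
    have hval : Divisor.pullbackAlong φ (isIntegral_along' φ) (Finsupp.single P 1) P'
        = Place.ramificationIndexAlong φ P' := by
      rw [Divisor.pullbackAlong_apply]
      have : P'.restrictAlong φ (isIntegral_along' φ) = P := hP
      rw [this, Finsupp.single_eq_same, mul_one]
    have hpos : (0 : ℤ) < Divisor.pullbackAlong φ (isIntegral_along' φ) (Finsupp.single P 1) P' := by
      rw [hval]
      exact_mod_cast Red_ram_pos φ P'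
    refine Finset.sum_pos' (fun a _ => ?_) ⟨P', Finsupp.mem_support_iff.2 hpos.ne', ?_⟩
    · split_ifs
      · exact hnn a
      · exact le_rfl
    · rw [if_pos hr]
      exact hpos

theorem exists_restrictAlong_eq (P : Place Ω F) :
    ∃ P' : Place Ω F', res φ P' = P := by
  classical
  by_contra hcon
  push_neg at hcon
  have h0 : Divisor.pullbackAlong φ (isIntegral_along' φ) (Finsupp.single P 1) = 0 := by
    refine Finsupp.ext fun w => ?_
    rw [Divisor.pullbackAlong_apply, Finsupp.single_apply, if_neg (fun e => hcon w e.symm)]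
    simp
  have h1 := sum_RedA_single φ (id : Place Ω F' → Place Ω F') P
  rw [RedA_apply, h0] at h1
  simp only [Finsupp.mapDomain_zero, Finsupp.sum_zero_index] at h1
  have := finrankAlong_pos φ
  omega

/-- two effective elements of the same total degree, one below the other, are equal. -/
theorem eq_of_le_of_sum_eq {E E' : S →₀ ℤ} (h : ∀ s, E s ≤ E' s)
    (hs : E.sum (fun _ n => n) = E'.sum (fun _ n => n)) : E = E' := by
  classical
  have h1 : (E' - E).sum (fun _ n => n) = 0 := by
    rw [Finsupp.sum_sub_index (fun _ _ _ => rfl), hs, sub_self]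
  rw [Finsupp.sum, Finset.sum_eq_zero_iff_of_nonneg (fun s _ => by
    rw [Finsupp.sub_apply]; exact sub_nonneg.2 (h s))] at h1
  refine Finsupp.ext fun s => ?_
  by_cases hsupp : s ∈ (E' - E).support
  · have := h1 s hsupp
    rw [Finsupp.sub_apply] at this
    omega
  · have := Finsupp.notMem_support_iff.1 hsupp
    rw [Finsupp.sub_apply] at this
    omega

end Fermat.Agent.S15.Mod.Cen
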