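import Fermat.Agent.S15.Mod.Cen.Chart1
import Fermat.Agent.S15.Mod.Cen.Chart2
import Fermat.Agent.S15.Mod.Cen.Red

/-!
# S15 / MOD / CEN : (I2) the cusps over `∞` and over `0` have different reductions,
(I3) `j(x) ∉ A ⇒ (j g)(x) ∉ A`
-/

set_option autoImplicit false

noncomputable section

namespace Fermat.Agent.S15.Mod.Cen

open AlgebraicCurve Fermat.Agent.GR.E Fermat.Agent.S17.FF Fermat.Agent.GR.S.R Fermat.Agent.GR.S

variable {Ω F F' : Type} [Field Ω] [IsAlgClosed Ω] [CharZero Ω] [Field F] [Algebra Ω F] [IsFF Ω F]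
  [Field F'] [Algebra Ω F'] [IsFF Ω F'] [HasPrincipalDivisors Ω F']
variable {A : ValuationSubring Ω} {𝒪 : ValuationSubring F'} {φ : F →ₐ[Ω] F'} {h : F'}
  {p : ℕ} {j g : F} {inf zero : Place Ω F}

/-- **(I2)** -/
theorem Setting.red_ne (S : Setting A 𝒪 φ h p j g inf zero) {P' P'' : Place Ω F'}
    (h1 : res φ P' = inf) (h2 : res φ P'' = zero) : red A h P' ≠ red A h P'' := by
  have j1 := S.ord_j_neg_inf h1
  have j2 := S.ord_j_neg_zero h2
  have o1 := S.br.ord_ne_zero S.h0 j1
  have o2 := S.br.ord_ne_zero S.h0 j2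
  intro heq
  rcases lt_or_gt_of_ne o1 with a1 | a1 <;> rcases lt_or_gt_of_ne o2 with a2 | a2
  · -- both poles of `h`
    rw [sep_red_of_not_dom (sep_not_dom_of_ord_neg a1),
      sep_red_of_not_dom (sep_not_dom_of_ord_neg a2)] at heq
    have hk : ker A h⁻¹ P' = ker A h⁻¹ P'' := Sum.inr.inj heq
    have hm : φ g / h ^ (p - 1) ∈ ker A h⁻¹ P'' :=
      ⟨S.t1_mem, by rw [S.val_t1_zero h2 a2]; exact A.nonunits.zero_mem⟩
    rw [← hk] at hm
    have := hm.2
    rw [S.val_t1_inf h1 a1] at this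
    exact Dom2_one_not_mem_nonunits this
  · rw [sep_red_of_not_dom (sep_not_dom_of_ord_neg a1), sep_red_of_dom (sep_dom_of_ord_pos a2)]
      at heq
    exact Sum.inr_ne_inl heq
  · rw [sep_red_of_dom (sep_dom_of_ord_pos a1), sep_red_of_not_dom (sep_not_dom_of_ord_neg a2)]
      at heq
    exact Sum.inl_ne_inr heq
  · -- both zeros of `h`
    rw [sep_red_of_dom (sep_dom_of_ord_pos a1), sep_red_of_dom (sep_dom_of_ord_pos a2)] at heq
    have hk : ker A h P' = ker A h P'' := Sum.inl.inj heq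
    rcases S.br.V with hV | ⟨e, V, he, _, hV0, rel⟩
    · rw [← hV] at j1
      omega
    · have hm : φ g * h ^ (e * (p - 1)) ∈ ker A h P'' :=
        ⟨S.t2_mem he hV0 rel, by rw [S.val_t2_zero he hV0 rel h2 a2]; exact A.nonunits.zero_mem⟩
      rw [← hk] at hm
      have := hm.2
      rw [S.val_t2_inf he hV0 rel h1 a1] at this
      exact sep_pow_not_mem_nonunits hV0 _ this

/-- (I2) in the form used in `Main`. -/
theorem Setting.RedA_disjoint (S : Setting A 𝒪 φ h p j g inf zero) (s : Set F' ⊕ Set F')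
    (h1 : 0 < RedA φ (red A h) (Finsupp.single inf 1) s) :
    RedA φ (red A h) (Finsupp.single zero 1) s = 0 := by
  obtain ⟨P', hP', hs'⟩ := (RedA_single_pos_iff φ (red A h) inf s).1 h1
  have h0 : 0 ≤ RedA φ (red A h) (Finsupp.single zero 1) s := by
    have := RedA_mono φ (red A h) (D := 0) (E := Finsupp.single zero 1) (fun P => by
      classical
      rw [Finsupp.zero_apply, Finsupp.single_apply]
      split_ifs <;> simp) s
    rwa [map_zero, Finsupp.zero_apply] at this
  by_contra hne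
  obtain ⟨P'', hP'', hs''⟩ := (RedA_single_pos_iff φ (red A h) zero s).1
    (lt_of_le_of_ne h0 (Ne.symm hne))
  exact S.red_ne hP' hP'' (hs'.trans hs''.symm)

end Fermat.Agent.S15.Mod.Cen
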